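/-
helper69: **the inertia group at a place over `p` surjects onto `Gal(ℚ(μ_{p^n})/ℚ)`**.

For a valuation subring `A` of `ℚ̄` over `p`, a primitive `p^n`-th root of unity `ζ` and any `a`
prime to `p`, there is `σ` in the inertia group of `A` with `σ η = η ^ a` for every `p^n`-th root of
unity `η`.  (Total ramification of `p` in `ℚ(ζ_{p^n})`: every automorphism of `ℚ(ζ)` is congruent to
the identity modulo `𝔪_A` on `ℤ[ζ]`, then lift with `S13.UnramBridge.exists_inertia_lift`.)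
-/
import Mathlib
import Fermat.Agent.S13.UnramBridge

set_option autoImplicit false
set_option linter.style.haveILetI false

open Polynomial

namespace Fermat.Agent.Lib.InertiaCyclo69

local notation "Qb" => AlgebraicClosure ℚ

variable {A : ValuationSubring Qb} {p : ℕ}

/-- A `p`-power root of unity is congruent to `1` modulo the maximal ideal of a valuation subring
over `p`. -/
theorem sub_one_mem_nonunits (hp : p.Prime) (hA : A.LiesOverPrime p) {n : ℕ} {ζ : Qb}
    (hζ : ζ ^ p ^ n = 1) : ζ - 1 ∈ A.nonunits := by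
  have hpn : p ^ n ≠ 0 := pow_ne_zero _ hp.ne_zero
  have hv1 : A.valuation ζ = 1 := by
    have h1 : A.valuation ζ ^ p ^ n = 1 := by rw [← map_pow, hζ, map_one]
    exact (pow_eq_one_iff_of_nonneg zero_le hpn).mp h1
  have hζA : ζ ∈ A := (A.valuation_le_one_iff ζ).mp hv1.le
  -- work in the ring `A`
  let z : A := ⟨ζ, hζA⟩
  obtain ⟨r, hr⟩ := exists_add_pow_prime_pow_eq hp (z - 1) (1 : A) n
  rw [sub_add_cancel, one_pow] at hr
  have hz : z ^ p ^ n = 1 := Subtype.ext (by simpa using hζ)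
  rw [hz] at hr
  have hr' : (z - 1) ^ p ^ n = -((p : A) * (z - 1) * 1 * r) := by
    linear_combination -hr
  have hr'' : (ζ - 1) ^ p ^ n = -((p : Qb) * (ζ - 1) * 1 * (r : Qb)) := by
    have := congrArg (Subtype.val : A → Qb) hr'
    simpa using this
  rw [ValuationSubring.mem_nonunits_iff]
  by_contra hcon
  push Not at hcon
  have hle : A.valuation (ζ - 1) ≤ 1 := by
    refine le_trans (Valuation.map_sub _ _ _) (max_le hv1.le ?_)
    rw [map_one]
  have heq : A.valuation (ζ - 1) = 1 := le_antisymm hle hcon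
  have h1 : A.valuation ((ζ - 1) ^ p ^ n) = 1 := by rw [map_pow, heq, one_pow]
  rw [hr'', Valuation.map_neg, map_mul, map_mul, map_mul, heq, map_one, mul_one, mul_one] at h1
  have hpv : A.valuation (p : Qb) < 1 := (ValuationSubring.mem_nonunits_iff (A := A)).mp hA
  have hrv : A.valuation (r : Qb) ≤ 1 := (A.valuation_le_one_iff _).mpr r.2
  have : A.valuation (p : Qb) * A.valuation (r : Qb) < 1 := by
    calc A.valuation (p : Qb) * A.valuation (r : Qb) ≤ A.valuation (p : Qb) * 1 := by gcongr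
      _ < 1 := by simpa using hpv
  exact absurd h1 this.ne


/-- the difference of two `p`-power roots of unity is in the maximal ideal. -/
theorem sub_mem_nonunits (hp : p.Prime) (hA : A.LiesOverPrime p) {n : ℕ} {ζ η : Qb}
    (hζ : ζ ^ p ^ n = 1) (hη : η ^ p ^ n = 1) : ζ - η ∈ A.nonunits := by
  have h1 := sub_one_mem_nonunits hp hA hζ
  have h2 := sub_one_mem_nonunits hp hA hη
  rw [ValuationSubring.mem_nonunits_iff] at h1 h2 ⊢
  have e : ζ - η = (ζ - 1) - (η - 1) := by ring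
  rw [e]
  exact lt_of_le_of_lt (Valuation.map_sub _ _ _) (max_lt h1 h2)

/-- `aeval ζ f ≡ aeval η f` modulo the maximal ideal for `p`-power roots of unity `ζ`, `η` and an
integer polynomial `f`. -/
theorem aeval_sub_aeval_mem_nonunits (hp : p.Prime) (hA : A.LiesOverPrime p) {n : ℕ} {ζ η : Qb}
    (hζ : ζ ^ p ^ n = 1) (hη : η ^ p ^ n = 1) (f : ℤ[X]) :
    aeval ζ f - aeval η f ∈ A.nonunits := by
  have hpn : p ^ n ≠ 0 := pow_ne_zero _ hp.ne_zero
  have hmem : ∀ {ξ : Qb}, ξ ^ p ^ n = 1 → ξ ∈ A := by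
    intro ξ hξ
    have h1 : A.valuation ξ ^ p ^ n = 1 := by rw [← map_pow, hξ, map_one]
    have h2 : A.valuation ξ = 1 := (pow_eq_one_iff_of_nonneg zero_le hpn).mp h1
    exact (A.valuation_le_one_iff ξ).mp h2.le
  let z : A := ⟨ζ, hmem hζ⟩
  let y : A := ⟨η, hmem hη⟩
  obtain ⟨w, hw⟩ := sub_dvd_eval_sub z y (f.map (Int.castRingHom A))
  have hz : (((f.map (Int.castRingHom A)).eval z : A) : Qb) = aeval ζ f := by
    rw [eval_map, ← A.subtype_apply, hom_eval₂, aeval_def]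
    congr 1
  have hy : (((f.map (Int.castRingHom A)).eval y : A) : Qb) = aeval η f := by
    rw [eval_map, ← A.subtype_apply, hom_eval₂, aeval_def]
    congr 1
  have hw' : aeval ζ f - aeval η f = (ζ - η) * (w : Qb) := by
    have := congrArg (Subtype.val : A → Qb) hw
    rw [← hz, ← hy]
    simpa using this
  rw [hw', ValuationSubring.mem_nonunits_iff, map_mul]
  have h1 : A.valuation (ζ - η) < 1 :=
    (ValuationSubring.mem_nonunits_iff (A := A)).mp (sub_mem_nonunits hp hA hζ hη)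
  have h2 : A.valuation (w : Qb) ≤ 1 := (A.valuation_le_one_iff _).mpr w.2
  calc A.valuation (ζ - η) * A.valuation (w : Qb) ≤ A.valuation (ζ - η) * 1 := by gcongr
    _ < 1 := by simpa using h1


/-- **Inertia at `p` surjects onto `Gal(ℚ(ζ_{p^n})/ℚ)`.** -/
theorem exists_mem_inertia_apply_eq_pow (hp : p.Prime) (hA : A.LiesOverPrime p) (n : ℕ) {ζ : Qb}
    (hζ : IsPrimitiveRoot ζ (p ^ n)) {a : ℕ} (ha : a.Coprime p) :
    ∃ σ ∈ A.inertiaSubgroupIn ℚ, σ ζ = ζ ^ a := by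
  haveI : NeZero (p ^ n) := ⟨pow_ne_zero _ hp.ne_zero⟩
  haveI : Algebra.IsIntegral ℚ Qb := inferInstance
  let K : IntermediateField ℚ Qb := IntermediateField.adjoin ℚ {ζ}
  haveI : IsCyclotomicExtension {p ^ n} ℚ K :=
    hζ.intermediateField_adjoin_isCyclotomicExtension ℚ
  let ζK : K := ⟨ζ, IntermediateField.mem_adjoin_simple_self ℚ ζ⟩
  have hζK : IsPrimitiveRoot ζK (p ^ n) := by
    refine IsPrimitiveRoot.of_map_of_injective (f := algebraMap K Qb) ?_ (algebraMap K Qb).injective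
    exact hζ
  have hirr : Irreducible (cyclotomic (p ^ n) ℚ) := cyclotomic.irreducible_rat (NeZero.pos _)
  let t : (ZMod (p ^ n))ˣ := ZMod.unitOfCoprime a (Nat.Coprime.pow_right n ha)
  let τ : K ≃ₐ[ℚ] K := (IsCyclotomicExtension.autEquivPow K hirr).symm t
  have hpow1 : ζK ^ p ^ n = 1 := hζK.pow_eq_one
  -- `τ ζK = ζK ^ a`
  have hτ : τ ζK = ζK ^ a := by
    set ζ₀ := IsCyclotomicExtension.zeta (p ^ n) ℚ K with hζ₀def
    have hζ₀ : IsPrimitiveRoot ζ₀ (p ^ n) := IsCyclotomicExtension.zeta_spec (p ^ n) ℚ K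
    have h1 : (IsCyclotomicExtension.autEquivPow K hirr) τ = t :=
      (IsCyclotomicExtension.autEquivPow K hirr).apply_symm_apply t
    have h2 : ζ₀ ^ (t : ZMod (p ^ n)).val = τ ζ₀ := by
      rw [← h1]
      exact hζ₀.autToPow_spec ℚ τ
    obtain ⟨k, -, hk⟩ := hζ₀.eq_pow_of_pow_eq_one hpow1
    have ht : (t : ZMod (p ^ n)).val = a % p ^ n := by
      rw [ZMod.coe_unitOfCoprime, ZMod.val_natCast]
    rw [← hk, map_pow, ← h2, ht, ← pow_eq_pow_mod a hζ₀.pow_eq_one, ← pow_mul, ← pow_mul,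
      mul_comm]
  -- congruence on integers of `K`
  have hint : ∀ x : K, IsIntegral ℤ x → (((τ x : K) : Qb) - x) ∈ A.nonunits := by
    intro x hx
    obtain ⟨y, hy⟩ :=
      (IsCyclotomicExtension.Rat.isIntegralClosure_adjoin_singleton hζK).isIntegral_iff.1 hx
    have hy2 : (y : K) ∈ Algebra.adjoin ℤ {ζK} := y.2
    rw [Algebra.adjoin_singleton_eq_range_aeval] at hy2
    obtain ⟨f, hf⟩ := hy2
    have hx' : x = aeval ζK f := by rw [← hy]; exact hf.symm
    have hcoe : ∀ ξ : K, ((aeval ξ f : K) : Qb) = aeval (ξ : Qb) f := by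
      intro ξ
      rw [aeval_def, aeval_def, ← K.algebraMap_apply, hom_eval₂]
      congr 1
    have hτx : τ x = aeval (ζK ^ a) f := by
      rw [hx', ← hτ, aeval_def, aeval_def]
      change (τ : K →+* K) (eval₂ (algebraMap ℤ K) ζK f) = _
      rw [hom_eval₂]
      congr 1
      exact Subsingleton.elim _ _
    rw [hτx, hcoe, hx', hcoe]
    have e1 : ((ζK ^ a : K) : Qb) = ζ ^ a := by push_cast; rfl
    rw [e1]
    refine aeval_sub_aeval_mem_nonunits hp hA (n := n) ?_ hζ.pow_eq_one f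
    rw [← pow_mul, mul_comm, pow_mul, hζ.pow_eq_one, one_pow]
  obtain ⟨σ, hσI, hσK⟩ :=
    Fermat.Agent.S13.UnramBridge.exists_inertia_lift K A hp hA τ hint
  refine ⟨σ, hσI, ?_⟩
  have := hσK ζK
  rw [hτ] at this
  exact this


/-- The same automorphism raises every `p^n`-th root of unity to the power `a`. -/
theorem exists_mem_inertia_forall_apply_eq_pow (hp : p.Prime) (hA : A.LiesOverPrime p) (n : ℕ)
    {a : ℕ} (ha : a.Coprime p) :
    ∃ σ ∈ A.inertiaSubgroupIn ℚ, ∀ η : Qb, η ^ p ^ n = 1 → σ η = η ^ a := by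
  haveI : NeZero (p ^ n) := ⟨pow_ne_zero _ hp.ne_zero⟩
  obtain ⟨ζ, hζ⟩ : ∃ ζ : Qb, IsPrimitiveRoot ζ (p ^ n) :=
    HasEnoughRootsOfUnity.exists_primitiveRoot Qb (p ^ n)
  obtain ⟨σ, hσI, hσ⟩ := exists_mem_inertia_apply_eq_pow hp hA n hζ ha
  refine ⟨σ, hσI, fun η hη => ?_⟩
  obtain ⟨k, -, rfl⟩ := hζ.eq_pow_of_pow_eq_one hη
  rw [map_pow, hσ, ← pow_mul, ← pow_mul, mul_comm]

/-- **`ℚ(ζ_p)/ℚ` is ramified at `p` for odd `p`**: some inertia element at `A ∣ p` moves every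
primitive `p`-th root of unity. -/
theorem exists_mem_inertia_apply_ne (hp : p.Prime) (hp2 : p ≠ 2) (hA : A.LiesOverPrime p) :
    ∃ σ ∈ A.inertiaSubgroupIn ℚ, ∀ ζ : Qb, IsPrimitiveRoot ζ p → σ ζ = ζ ^ 2 ∧ σ ζ ≠ ζ := by
  have h2 : Nat.Coprime 2 p := by
    rw [Nat.coprime_comm, Nat.Prime.coprime_iff_not_dvd hp]
    intro hdvd
    exact hp2 ((Nat.prime_dvd_prime_iff_eq hp Nat.prime_two).mp hdvd)
  obtain ⟨σ, hσI, hσ⟩ := exists_mem_inertia_forall_apply_eq_pow hp hA 1 h2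
  refine ⟨σ, hσI, fun ζ hζ => ?_⟩
  have h1 : σ ζ = ζ ^ 2 := hσ ζ (by rw [pow_one]; exact hζ.pow_eq_one)
  refine ⟨h1, ?_⟩
  rw [h1]
  intro hcon
  have hζ0 : ζ ≠ 0 := hζ.ne_zero hp.ne_zero
  have hζ1 : ζ = 1 := by
    have : ζ * ζ = ζ * 1 := by rw [mul_one, ← pow_two]; exact hcon
    exact mul_left_cancel₀ hζ0 this
  exact hζ.ne_one hp.one_lt hζ1

end Fermat.Agent.Lib.InertiaCyclo69
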